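import Fermat.Agent.EllLocal.UnitRoot
import Fermat.Agent.EllLocal.TateDet
import Fermat.Agent.TameInertia.Frobenius

/-!
# The Tate module at a good prime

The Tate module of an elliptic curve at a good prime `ℓ ≠ p`: unramified, and a Frobenius element
has trace `a_ℓ`.
-/

set_option autoImplicit false

noncomputable section

namespace Fermat.Agent.TwoAdic.CurvePoint

open WeierstrassCurve Fermat.Agent.EllLocal
open scoped WeierstrassCurve.Affine

attribute [local instance] instDecEqKA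

local notation "ℚ̄" => AlgebraicClosure ℚ
set_option quotPrecheck false in
local notation "T(" W "," p ")" => tateModule (WeierstrassCurve.map W (Int.castRingHom ℚ)) p

variable {W : WeierstrassCurve ℤ} {A : ValuationSubring ℚ̄} {ℓ p : ℕ}

theorem not_dvd_prime_pow (hℓ : ℓ.Prime) (hp : p.Prime) (hne : ℓ ≠ p) (n : ℕ) : ¬ ℓ ∣ p ^ n :=
  fun h => hne ((Nat.prime_dvd_prime_iff_eq hℓ hp).1 (hℓ.dvd_of_dvd_pow h))

variable [Fact p.Prime]

/-- Inertia at a good prime `ℓ ≠ p` fixes the Tate module. -/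
theorem tateAct_inertia (hℓ : ℓ.Prime) (hne : ℓ ≠ p) (hgood : W.IsGoodPrimeFor ℓ)
    (hA : A.LiesOverPrime ℓ) {σ : ℚ̄ ≃ₐ[ℚ] ℚ̄} (hσ : σ ∈ A.inertiaSubgroupIn ℚ) :
    (tateAct σ : T(W, p) →ₗ[ℤ_[p]] T(W, p)) = 1 := by
  refine LinearMap.ext fun v => Subtype.ext (funext fun n => ?_)
  show σ • v.1 n = v.1 n
  refine eq_of_residueRed_eq hℓ hA hgood (not_dvd_prime_pow hℓ Fact.out hne n) ?_
    (tateModule_pow v n) (residueRed_inertia_smul hℓ hA hgood hσ _)
  rw [Affine.Point.algEquiv_smul_def, ← map_nsmul, tateModule_pow, map_zero]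

/-- A Frobenius element at a good prime `ℓ ≠ p` satisfies `φ² - a_ℓ φ + ℓ = 0`. -/
theorem tateAct_relation [Fact ℓ.Prime] (hne : ℓ ≠ p) (hgood : W.IsGoodPrimeFor ℓ)
    (hA : A.LiesOverPrime ℓ) {φ : ℚ̄ ≃ₐ[ℚ] ℚ̄} (hφ : A.IsFrobeniusAt φ ℓ) (v : T(W, p)) :
    tateAct φ (tateAct φ v) - W.apOfModel ℓ • tateAct φ v + (ℓ : ℤ) • v = 0 := by
  refine Subtype.ext (funext fun n => ?_)
  refine eq_of_residueRed_eq (Fact.out : ℓ.Prime) hA hgood
    (not_dvd_prime_pow Fact.out Fact.out hne n) (tateModule_pow _ n) (nsmul_zero _) ?_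
  rw [show ((0 : T(W, p)) : ℕ → PtQ (W.map (Int.castRingHom ℚ))) n = 0 from rfl, map_zero]
  exact redAt_frobenius_relation hA hgood hφ (v.1 n)

variable [(W.map (Int.castRingHom ℚ)).IsElliptic]

/-- The determinant of a Frobenius element at `ℓ ≠ p` is `ℓ`. -/
theorem det_tateRep_frobenius (hℓ : ℓ.Prime) (hne : ℓ ≠ p) (hA : A.LiesOverPrime ℓ)
    {φ : ℚ̄ ≃ₐ[ℚ] ℚ̄} (hφ : A.IsFrobeniusAt φ ℓ) :
    LinearMap.det ((tateRep (W.map (Int.castRingHom ℚ)) p).ρ φ) = (ℓ : ℤ_[p]) := by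
  refine PadicInt.ext_of_toZModPow.1 fun n => ?_
  have h := (tateRep_detIsCyclotomic (W.map (Int.castRingHom ℚ)) p).2 n φ ℓ fun μ hμ =>
    TameInertia.frobenius_root_of_unity hℓ hA hφ (not_dvd_prime_pow hℓ Fact.out hne n) hμ
  rw [Nat.cast_pow, ← PadicInt.ker_toZModPow, RingHom.mem_ker, map_sub, sub_eq_zero] at h
  exact h

/-- The trace of a Frobenius element at a good prime `ℓ ≠ p` is `a_ℓ`. -/
theorem trace_tateRep_frobenius (hℓ : ℓ.Prime) (hne : ℓ ≠ p) (hgood : W.IsGoodPrimeFor ℓ)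
    (hA : A.LiesOverPrime ℓ) {φ : ℚ̄ ≃ₐ[ℚ] ℚ̄} (hφ : A.IsFrobeniusAt φ ℓ)
    (b : Module.Basis (Fin 2) ℤ_[p] T(W, p)) :
    (LinearMap.toMatrix b b (tateAct φ)).trace = (W.apOfModel ℓ : ℤ_[p]) := by
  have : Fact ℓ.Prime := ⟨hℓ⟩
  set M := LinearMap.toMatrix b b (tateAct φ) with hM
  have hdet : M.det = (ℓ : ℤ_[p]) := by
    rw [hM, LinearMap.det_toMatrix]
    exact det_tateRep_frobenius hℓ hne hA hφ
  have hrel : M * M - (W.apOfModel ℓ : ℤ_[p]) • M + (ℓ : ℤ_[p]) • 1 = 0 := by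
    rw [hM, ← LinearMap.toMatrix_mul, ← LinearMap.toMatrix_one b, ← map_smul, ← map_smul,
      ← map_sub, ← map_add, ← map_zero (LinearMap.toMatrix b b)]
    congr 1
    refine LinearMap.ext fun v => ?_
    rw [LinearMap.add_apply, LinearMap.sub_apply, LinearMap.smul_apply, LinearMap.smul_apply,
      Module.End.mul_apply, Module.End.one_apply, Int.cast_smul_eq_zsmul, LinearMap.zero_apply,
      ← Int.cast_natCast (R := ℤ_[p]) ℓ, Int.cast_smul_eq_zsmul]
    exact tateAct_relation hne hgood hA hφ v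
  have key : (M.trace - (W.apOfModel ℓ : ℤ_[p])) • M = 0 := by
    ext i j
    have e := congrFun (congrFun hrel i) j
    rw [Matrix.det_fin_two] at hdet
    simp only [Matrix.add_apply, Matrix.sub_apply, Matrix.smul_apply, Matrix.mul_apply,
      Fin.sum_univ_two, smul_eq_mul, Matrix.zero_apply] at e
    rw [Matrix.smul_apply, Matrix.trace_fin_two, smul_eq_mul, Matrix.zero_apply]
    fin_cases i <;> fin_cases j <;> simp [-mul_eq_zero] at e ⊢
    · linear_combination e + hdet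
    · linear_combination e
    · linear_combination e
    · linear_combination e + hdet
  have h0 := congrArg Matrix.det key
  rw [Matrix.det_smul, hdet, Fintype.card_fin, Matrix.det_zero] at h0
  exact sub_eq_zero.1 (pow_eq_zero_iff two_ne_zero |>.1
    ((mul_eq_zero.1 h0).resolve_right (Nat.cast_ne_zero.2 hℓ.ne_zero)))

end Fermat.Agent.TwoAdic.CurvePoint
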