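import Fermat.Agent.EllLocal.Mult.TateShape
import Fermat.Agent.EllLocal.Mult.FrobeniusSign
import Fermat.Agent.TwoAdic.Pair.Cond
import Fermat.Agent.TwoAdic.CurvePoint.Trace

/-!
# The 2-adic Tate module at the bad primes of a semistable curve

The `2`-adic Tate module at the bad primes of a semistable curve: upper triangular on each
decomposition group, unipotent inertia and exact sign at odd primes, ordinary at `2` with unit
root the sign.
-/

set_option autoImplicit false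

noncomputable section

namespace Fermat.Agent.TwoAdic.CurvePoint

open WeierstrassCurve Fermat.Agent.EllLocal Fermat.Agent.EllLocal.Mult Fermat.Agent.DefRing Fermat.Agent.Deform
open Fermat.Agent.MultRed (inertia_mem_decomposition)
open scoped WeierstrassCurve.Affine

set_option quotPrecheck false in
local notation "T(" W "," p ")" => tateModule (WeierstrassCurve.map W (Int.castRingHom ℚ)) p

open Classical in
/-- The sign of the curve at a multiplicative prime: `1` for split reduction, `-1` otherwise. -/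
def curveSign (W : WeierstrassCurve ℤ) (q : ℕ) : ℤ :=
  if q = 2 then (if Even (W.a₂ + W.a₃) then 1 else -1)
  else (if IsSquare ((-W.c₆ : ℤ) : ZMod q) then 1 else -1)

theorem curveSign_eq (W : WeierstrassCurve ℤ) (q : ℕ) :
    curveSign W q = 1 ∨ curveSign W q = -1 := by
  unfold curveSign; split_ifs <;> simp

variable {W : WeierstrassCurve ℤ} {A : ValuationSubring (AlgebraicClosure ℚ)} {q : ℕ}

theorem sign_frobenius (h : IsMultAt W A q) {φ : GQ} (hφ : A.IsFrobeniusAt φ q) :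
    sign W A φ = curveSign W q := by
  classical
  have key : ∀ (P : Prop), (sign W A φ = 1 ↔ P) →
      sign W A φ = if P then 1 else -1 := fun P hP => by
    split_ifs with hh
    · exact hP.2 hh
    · exact (sign_eq W A φ).resolve_left fun h1 => hh (hP.1 h1)
  unfold curveSign
  by_cases hq : q = 2
  · subst hq
    rw [if_pos rfl]
    convert key _ (frobenius_sign_two_iff h hφ)
  · rw [if_neg hq]
    convert key _ (frobenius_sign_iff h hq hφ)

theorem sign_pow_mul (h : IsMultAt W A q) {φ τ : GQ} (hφ : A.IsFrobeniusAt φ q)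
    (hτ : τ ∈ A.inertiaSubgroupIn ℚ) (n : ℕ) :
    sign W A (φ ^ n * τ) = curveSign W q ^ n := by
  induction n with
  | zero => rw [pow_zero, one_mul, pow_zero, sign_inertia h hτ]
  | succ n ih =>
    rw [pow_succ', mul_assoc, sign_hom h hφ.mem_decompositionSubgroup
      (mul_mem (pow_mem hφ.mem_decompositionSubgroup n) (inertia_mem_decomposition hτ)), ih,
      sign_frobenius h hφ, pow_succ']

variable [(W.map (Int.castRingHom ℚ)).IsElliptic]

/-- The matrix representation on the `2`-adic Tate module. -/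
def tateMat (b : Module.Basis (Fin 2) ℤ_[2] T(W, 2)) : MRep ℤ_[2] :=
  matrixRep (tateRep (W.map (Int.castRingHom ℚ)) 2) b

theorem tateMat_apply (b : Module.Basis (Fin 2) ℤ_[2] T(W, 2)) (σ : GQ) :
    tateMat b σ = LinearMap.toMatrix b b (tateAct σ) := rfl

/-- In an adapted basis the decomposition group is upper triangular. -/
theorem exists_triangular (h : IsMultAt W A q) :
    ∃ c : Module.Basis (Fin 2) ℤ_[2] T(W, 2), ∀ σ ∈ A.decompositionSubgroup ℚ,
      tateMat c σ 1 0 = 0 ∧ tateMat c σ 1 1 = (sign W A σ : ℤ_[2]) ∧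
      ∀ n a : ℕ, (∀ μ : AlgebraicClosure ℚ, μ ^ 2 ^ n = 1 → σ μ = μ ^ a) →
        PadicInt.toZModPow n (tateMat c σ 0 0) = (sign W A σ : ZMod (2 ^ n)) * a := by
  obtain ⟨c, -, hD⟩ := exists_tate_shape (p := 2) h
  refine ⟨c, fun σ hσ => ?_⟩
  obtain ⟨hquot, x, hx, hxa⟩ := hD σ hσ
  have e0 : tateAct σ (c 0) = x • c 0 := hx _ (Submodule.mem_span_singleton_self _)
  have e1 := (mem_span_iff _).1 (hquot (c 1))
  simp only [tateMat_apply, LinearMap.toMatrix_apply, e0, map_smul, Module.Basis.repr_self]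
  refine ⟨by simp, ?_, fun n a ha => by simpa using hxa n a ha⟩
  rw [map_sub, map_zsmul, Finsupp.sub_apply, Finsupp.smul_apply, Module.Basis.repr_self,
    Finsupp.single_eq_same, zsmul_one, sub_eq_zero] at e1
  exact e1

/-- Change of basis of the Tate module. -/
theorem exists_conj (b c : Module.Basis (Fin 2) ℤ_[2] T(W, 2)) :
    ∃ g : (Matrix (Fin 2) (Fin 2) ℤ_[2])ˣ, ∀ σ,
      (g : Matrix (Fin 2) (Fin 2) ℤ_[2]) * tateMat b σ = tateMat c σ * g := by
  refine (exists_equiv_iff_exists_GL b c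
    (fun σ => (tateRep (W.map (Int.castRingHom ℚ)) 2).ρ σ)
    (fun σ => (tateRep (W.map (Int.castRingHom ℚ)) 2).ρ σ)).1 ⟨LinearEquiv.refl _ _, fun σ x => rfl⟩

omit [(W.map (Int.castRingHom ℚ)).IsElliptic] in
theorem inertia_exponent (hq : q.Prime) (hq2 : q ≠ 2) (hA : A.LiesOverPrime q) {τ : GQ}
    (hτ : τ ∈ A.inertiaSubgroupIn ℚ) (n : ℕ) (μ : AlgebraicClosure ℚ) (hμ : μ ^ 2 ^ n = 1) :
    τ μ = μ ^ 1 := by
  rw [pow_one]
  exact BigImage.inertia_root_of_unity hq hA hτ (not_dvd_prime_pow hq Nat.prime_two hq2 n) hμ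

theorem eq_zero_of_conj {R : Type} [CommRing R] (g : (Matrix (Fin 2) (Fin 2) R)ˣ)
    {N N' M M' : Matrix (Fin 2) (Fin 2) R} (hN : (g : Matrix (Fin 2) (Fin 2) R) * N = N' * g)
    (hM : (g : Matrix (Fin 2) (Fin 2) R) * M = M' * g) (a c a' c' : R)
    (hz : (a • N' - c • 1) * (a' • M' - c' • 1) = 0) :
    (a • N - c • 1) * (a' • M - c' • 1) = 0 := by
  have key : ∀ (X X' : Matrix (Fin 2) (Fin 2) R), (g : Matrix (Fin 2) (Fin 2) R) * X = X' * g →
      ∀ e f : R, (g : Matrix (Fin 2) (Fin 2) R) * (e • X - f • 1) = (e • X' - f • 1) * g :=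
    fun X X' h e f => by
      rw [mul_sub, sub_mul, mul_smul_comm, mul_smul_comm, smul_mul_assoc, smul_mul_assoc, h,
        mul_one, one_mul]
  refine g.isUnit.mul_right_eq_zero.1 ?_
  rw [← mul_assoc, key N N' hN, mul_assoc, key M M' hM, ← mul_assoc, hz, zero_mul]

variable (b : Module.Basis (Fin 2) ℤ_[2] T(W, 2))

/-- New of exact sign at an odd multiplicative prime. -/
theorem tateMat_new (h : IsMultAt W A q) (hq2 : q ≠ 2) {φ : GQ} (hφ : A.IsFrobeniusAt φ q) :
    (tateMat b φ).trace = (curveSign W q : ℤ_[2]) * ((q : ℤ_[2]) + 1) ∧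
    ∀ τ ∈ A.inertiaSubgroupIn ℚ, (tateMat b τ).trace = 2 ∧ (tateMat b τ).det = 1 ∧
      (tateMat b φ - ((curveSign W q : ℤ_[2]) * (q : ℤ_[2])) • 1) * (tateMat b τ - 1) = 0 ∧
      (tateMat b τ - 1) * (tateMat b φ - (curveSign W q : ℤ_[2]) • 1) = 0 := by
  obtain ⟨c, hc⟩ := exists_triangular h
  obtain ⟨g, hg⟩ := exists_conj b c
  set s : ℤ_[2] := (curveSign W q : ℤ_[2]) with hs
  obtain ⟨hφ10, hφ11, hφ00⟩ := hc φ hφ.mem_decompositionSubgroup
  rw [sign_frobenius h hφ, ← hs] at hφ11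
  have hφ00' : tateMat c φ 0 0 = s * (q : ℤ_[2]) := PadicInt.ext_of_toZModPow.1 fun n => by
    rw [hφ00 n q fun μ hμ => TameInertia.frobenius_root_of_unity h.prime h.liesOver hφ
      (not_dvd_prime_pow h.prime Nat.prime_two hq2 n) hμ, sign_frobenius h hφ, hs, map_mul,
      map_intCast, map_natCast]
  refine ⟨?_, fun τ hτ => ?_⟩
  · rw [(conj_det g (hg φ)).2, Matrix.trace_fin_two, hφ00', hφ11]
    ring
  obtain ⟨h10, h11, h00⟩ := hc τ (inertia_mem_decomposition hτ)
  rw [sign_inertia h hτ, Int.cast_one] at h11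
  have h00' : tateMat c τ 0 0 = 1 := PadicInt.ext_of_toZModPow.1 fun n => by
    rw [h00 n 1 (inertia_exponent h.prime hq2 h.liesOver hτ n), sign_inertia h hτ, Int.cast_one,
      Nat.cast_one, one_mul, map_one]
  refine ⟨?_, ?_, ?_, ?_⟩
  · rw [(conj_det g (hg τ)).2, Matrix.trace_fin_two, h00', h11]
    norm_num
  · rw [(conj_det g (hg τ)).1, Matrix.det_fin_two, h00', h11, h10]
    ring
  · have := eq_zero_of_conj g (hg φ) (hg τ) 1 (s * (q : ℤ_[2])) 1 1 (by
      ext i j
      fin_cases i <;> fin_cases j <;>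
        simp [Matrix.mul_apply, Fin.sum_univ_two, h10, h11, h00', hφ10, hφ00'])
    simpa only [one_smul] using this
  · have := eq_zero_of_conj g (hg τ) (hg φ) 1 1 1 s (by
      ext i j
      fin_cases i <;> fin_cases j <;>
        simp [Matrix.mul_apply, Fin.sum_univ_two, h10, h11, h00', hφ10, hφ11])
    simpa only [one_smul] using this

/-- A line fixed by inertia at an odd multiplicative prime: the first column of a unit. -/
theorem tateMat_fixed (h : IsMultAt W A q) (hq2 : q ≠ 2) :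
    ∃ U : (Matrix (Fin 2) (Fin 2) ℤ_[2])ˣ, ∀ τ ∈ A.inertiaSubgroupIn ℚ, ∀ i,
      (tateMat b τ * (U : Matrix (Fin 2) (Fin 2) ℤ_[2])) i 0 =
        (U : Matrix (Fin 2) (Fin 2) ℤ_[2]) i 0 := by
  obtain ⟨c, hc⟩ := exists_triangular h
  obtain ⟨g, hg⟩ := exists_conj c b
  refine ⟨g, fun τ hτ i => ?_⟩
  obtain ⟨h10, -, h00⟩ := hc τ (inertia_mem_decomposition hτ)
  have h00' : tateMat c τ 0 0 = 1 := PadicInt.ext_of_toZModPow.1 fun n => by
    rw [h00 n 1 (inertia_exponent h.prime hq2 h.liesOver hτ n), sign_inertia h hτ, Int.cast_one,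
      Nat.cast_one, one_mul, map_one]
  rw [← hg, Matrix.mul_apply, Fin.sum_univ_two, h10, h00', mul_one, mul_zero, add_zero]

/-- Ordinary at `2` with unit root the sign. -/
theorem tateMat_ordinary (hΔ0 : W.Δ ≠ 0) (hΔ : (2 : ℤ) ∣ W.Δ) (hc₄ : ¬ (2 : ℤ) ∣ W.c₄) :
    Pair.IsOrdinaryMat (tateMat b) (curveSign W 2 : ℤ_[2]) := by
  intro P hP φ hφ n n' τ hτ τ' hτ'
  have h : IsMultAt W P 2 := ⟨Nat.prime_two, hP, hΔ0, by exact_mod_cast hΔ, by exact_mod_cast hc₄⟩
  obtain ⟨c, hc⟩ := exists_triangular h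
  obtain ⟨g, hg⟩ := exists_conj b c
  set s : ℤ_[2] := (curveSign W 2 : ℤ_[2]) with hs
  have hmem : ∀ m : ℕ, ∀ t ∈ P.inertiaSubgroupIn ℚ, φ ^ m * t ∈ P.decompositionSubgroup ℚ :=
    fun m t ht => mul_mem (pow_mem hφ.mem_decompositionSubgroup m) (inertia_mem_decomposition ht)
  set σ := φ ^ n * τ with hσdef
  set σ' := φ ^ n' * τ' with hσ'def
  obtain ⟨h10, h11, -⟩ := hc σ (hmem n τ hτ)
  obtain ⟨h10', h11', -⟩ := hc σ' (hmem n' τ' hτ')
  rw [hσdef, sign_pow_mul h hφ hτ, ← hσdef, Int.cast_pow, ← hs] at h11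
  rw [hσ'def, sign_pow_mul h hφ hτ', ← hσ'def, Int.cast_pow, ← hs] at h11'
  have := eq_zero_of_conj g (hg σ') (hg σ) (s ^ n') (tateMat c σ').det 1 (s ^ n) (by
    ext i j
    fin_cases i <;> fin_cases j <;>
      simp [Matrix.mul_apply, Fin.sum_univ_two, Matrix.det_fin_two, h10, h11, h10', h11'] <;> left <;> ring)
  rw [one_smul, ← (conj_det g (hg σ')).1] at this
  exact this

end Fermat.Agent.TwoAdic.CurvePoint
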