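import Fermat.Agent.TwoAdic.CurvePoint.Residual
import Fermat.Agent.TwoAdic.Pair.Residual
import Fermat.Agent.DihedralGlue.Main
import Fermat.Agent.EigenRep.CoeffRing

/-!
# The 2-adic point of the switched curve on the rings of pairs

The `2`-adic point of the switched curve on the rings of pairs: with `D` the squarefree part of
`-Δ`, the Tate module extended to the coefficient ring is a pair lifting `E[2] ⊗ k`, with unit
root the sign at `2`, new of the curve's signs at `D` and at any multiplicative auxiliary prime,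
and free only at the other odd bad primes.
-/

set_option autoImplicit false

noncomputable section

namespace Fermat.Agent.TwoAdic.CurvePoint

open IsLocalRing WeierstrassCurve Fermat.Agent.EllLocal Fermat.Agent.DefRing Fermat.Agent.Deform
open scoped WeierstrassCurve.Affine

set_option quotPrecheck false in
local notation "T(" W "," p ")" => tateModule (WeierstrassCurve.map W (Int.castRingHom ℚ)) p

/-- The odd bad primes not dividing `D` and not auxiliary: the free primes of the last ring. -/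
def extraPrimes (W : WeierstrassCurve ℤ) (D : ℕ) (aux : Finset ℕ) : Finset ℕ :=
  W.Δ.natAbs.primeFactors.filter fun q => q ≠ 2 ∧ ¬ q ∣ D ∧ q ∉ aux

section Push

variable {A B : Type} [CommRing A] [CommRing B]

/-- Conjugate of the push forward of a matrix representation, as a ring map on matrices. -/
def pushConj (ι : A →+* B) (g : (Matrix (Fin 2) (Fin 2) B)ˣ) :
    Matrix (Fin 2) (Fin 2) A →+* Matrix (Fin 2) (Fin 2) B where
  toFun X := (g : Matrix (Fin 2) (Fin 2) B) * X.map ι * (↑g⁻¹ : Matrix (Fin 2) (Fin 2) B)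
  map_one' := by simp
  map_mul' X Y := by simp [Matrix.map_mul, mul_assoc]
  map_zero' := by simp
  map_add' X Y := by simp [Matrix.map_add, mul_add, add_mul]

variable (ι : A →+* B) (g : (Matrix (Fin 2) (Fin 2) B)ˣ)

theorem pushConj_smul (a : A) (X : Matrix (Fin 2) (Fin 2) A) :
    pushConj ι g (a • X) = ι a • pushConj ι g X := by
  show (g : Matrix (Fin 2) (Fin 2) B) * (a • X).map ι *
    (↑g⁻¹ : Matrix (Fin 2) (Fin 2) B) = _
  rw [Matrix.map_smul' ι _ _ (map_mul ι), mul_smul_comm, smul_mul_assoc]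
  rfl

theorem pushConj_trace (X : Matrix (Fin 2) (Fin 2) A) :
    (pushConj ι g X).trace = ι X.trace := by
  show ((g : Matrix (Fin 2) (Fin 2) B) * X.map ι * (↑g⁻¹ : Matrix (Fin 2) (Fin 2) B)).trace = _
  rw [Matrix.trace_mul_cycle, Units.inv_mul, one_mul]
  exact (AddMonoidHom.map_trace ι.toAddMonoidHom X).symm

theorem pushConj_det (X : Matrix (Fin 2) (Fin 2) A) : (pushConj ι g X).det = ι X.det := by
  show ((g : Matrix (Fin 2) (Fin 2) B) * X.map ι * (↑g⁻¹ : Matrix (Fin 2) (Fin 2) B)).det = _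
  rw [Matrix.det_units_conj, ← RingHom.mapMatrix_apply, RingHom.map_det]

end Push

/-- Properties of matrices read on the representation they define. -/
theorem toAdic_ρ_eq {A : Type} [CommRing A] [IsLocalRing A] (N : MRep A) (hc : IsCont N) (σ : GQ) :
    (toAdic N hc).ρ σ = Matrix.toLinAlgEquiv' (N σ) := rfl

variable {W : WeierstrassCurve ℤ}

/-- **The point of the curve.** -/
theorem exists_curvePair (hW : W.IsSemistableModel) (hneg : W.Δ < 0)
    (hΔ : ∃ (k : ℕ) (r : ℤ), 0 < k ∧ W.Δ = 4 ^ k * r ∧ r % 8 = 5)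
    (hcub : ∀ x : ℚ, x ^ 3 + (-27 * (W.c₄ : ℚ)) * x + (-54 * (W.c₆ : ℚ)) ≠ 0)
    {D : ℕ} (hD8 : D % 8 = 3) (hsquare : IsSquare (-W.Δ * D))
    (𝒪 : Type) [CommRing 𝒪] [IsLocalRing 𝒪] [IsAdicComplete (maximalIdeal 𝒪) 𝒪]
    [CharP (ResidueField 𝒪) 2] :
    ∃ (Dn : NormalData 𝒪) (N : MRep 𝒪), IsDihedralResidual D Dn.rbar ∧ IsCont Dn.rbar ∧
      (∀ ℓ : ℕ, ℓ.Prime → W.IsGoodPrimeFor ℓ → ∀ P : ValuationSubring (AlgebraicClosure ℚ),
        P.LiesOverPrime ℓ → ∀ φ : GQ, P.IsFrobeniusAt φ ℓ →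
          (Dn.rbar φ).trace = (W.apOfModel ℓ : ResidueField 𝒪)) ∧
      (∀ ℓ : ℕ, ℓ.Prime → ℓ ≠ 2 → W.IsGoodPrimeFor ℓ →
        ∀ P : ValuationSubring (AlgebraicClosure ℚ), P.LiesOverPrime ℓ →
          ∀ φ : GQ, P.IsFrobeniusAt φ ℓ → (N φ).trace = (W.apOfModel ℓ : 𝒪)) ∧
      (∀ w : ℕ, w.Prime → w ≠ 2 → (w : ℤ) ∣ W.Δ →
        ∀ P : ValuationSubring (AlgebraicClosure ℚ), P.LiesOverPrime w →
          ∃ v : Fin 2 → 𝒪, v ≠ 0 ∧ ∀ σ ∈ P.inertiaSubgroupIn ℚ, (N σ).mulVec v = v) ∧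
      ∀ (E : LiftData) (Q : Finset ℕ), E.D = D → (E.ℓ₀ : ℤ) ∣ W.Δ →
        (∀ q : ℕ, q.Prime → ((q ∣ D ∧ q ≠ E.ℓ₀) ∨ q ∈ E.aux) →
          (q : ℤ) ∣ W.Δ ∧ E.sgn q = curveSign W q) →
        extraPrimes W D E.aux ⊆ Q →
        ∀ (hl : IsLocalHom (algebraMap 𝒪 𝒪))
          (hs : Function.Surjective (residue 𝒪 ∘ algebraMap 𝒪 𝒪)),
          Pair.IsPair Dn E Q ∅ hl hs N (curveSign W 2 : 𝒪) := by
  classical
  obtain ⟨k, r, hk, hr, -⟩ := hΔ
  have h2Δ : (2 : ℤ) ∣ W.Δ := hr ▸ (dvd_pow (by norm_num) hk.ne').mul_right r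
  have hΔ0 : W.Δ ≠ 0 := hneg.ne
  have : (W.map (Int.castRingHom ℚ)).IsElliptic := Mult.isElliptic_map hΔ0
  have hroot := DihedralGlue.twoCubic_ne_zero_of_short W hcub
  have hD0 : D ≠ 0 := by omega
  obtain ⟨rbar, hdi, hrc, ⟨c, hrc'⟩, htr⟩ := DihedralGlue.exists_isDihedralResidual
    (k := ResidueField 𝒪) W hW hΔ0 h2Δ hD8 hsquare hroot
  obtain ⟨Dn, hDn⟩ := exists_normalData_torsMat (W := W) (𝒪 := 𝒪) c
    fun M hM => DihedralGlue.exists_torsMat_eq W c hΔ0 hD0 hsquare hroot hM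
  rw [← hrc'] at hDn
  obtain ⟨b⟩ := nonempty_basis_tateModule (W.map (Int.castRingHom ℚ)) 2
  have h2m : ((2 : ℕ) : 𝒪) ∈ maximalIdeal 𝒪 := by
    rw [← residue_eq_zero_iff, map_natCast]
    exact CharP.cast_eq_zero _ 2
  let ι : ℤ_[2] →+* 𝒪 := EigenRep.padicHom 2 h2m
  have hι : IsLocalHom ι := ⟨fun a ha => by
    by_contra hna
    rw [← mem_nonunits_iff, ← mem_maximalIdeal, PadicInt.maximalIdeal_eq_span_p,
      Ideal.mem_span_singleton'] at hna
    obtain ⟨x, rfl⟩ := hna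
    rw [map_mul, map_natCast] at ha
    exact (mem_maximalIdeal _).1 (Ideal.mul_mem_left _ _ h2m) ha⟩
  have hl₀ : IsLocalHom (algebraMap 𝒪 𝒪) := ⟨fun a ha => by simpa using ha⟩
  have hs₀ : Function.Surjective (residue 𝒪 ∘ algebraMap 𝒪 𝒪) := fun x => by
    obtain ⟨y, rfl⟩ := residue_surjective x
    exact ⟨y, rfl⟩
  obtain ⟨g₂, hg₂⟩ := exists_torsMat_conj b c
  have hred : ∀ x : ℤ_[2], toResidue hl₀ hs₀ (ι x) =
      ZMod.castHom dvd_rfl (ResidueField 𝒪) (BigImage.modP x) := fun x => by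
    obtain ⟨y, hy⟩ : ∃ y, x - (BigImage.modP x).val = (2 : ℕ) * y := by
      rw [← dvd_def, ← Ideal.mem_span_singleton, ← pow_one ((2 : ℕ) : ℤ_[2]),
        ← PadicInt.ker_toZModPow, RingHom.mem_ker, map_sub, map_natCast, sub_eq_zero]
      simp [BigImage.modP]
    conv_lhs => rw [eq_add_of_sub_eq hy]
    rw [map_add, map_add, map_mul, map_mul, map_natCast, map_natCast, map_natCast, map_natCast,
      CharP.cast_eq_zero (ResidueField 𝒪) 2, zero_mul, zero_add]
    conv_rhs => rw [← ZMod.natCast_zmod_val (BigImage.modP x), map_natCast]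
  have : HenselianRing 𝒪 (maximalIdeal 𝒪) := inferInstance
  obtain ⟨g, N, hgN, hnorm, hredN⟩ := Dn.exists_normal (hl := hl₀) (hs := hs₀)
    (mapRep ι (tateMat b))
    ⟨⟨((g₂ : Matrix (Fin 2) (Fin 2) (ZMod 2)).map (ZMod.castHom dvd_rfl _)),
      ((↑g₂⁻¹ : Matrix (Fin 2) (Fin 2) (ZMod 2)).map (ZMod.castHom dvd_rfl _)),
      by rw [← Matrix.map_mul, Units.mul_inv, Matrix.map_one _ (map_zero _) (map_one _)],
      by rw [← Matrix.map_mul, Units.inv_mul, Matrix.map_one _ (map_zero _) (map_one _)]⟩,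
      fun σ => by
        show (g₂ : Matrix (Fin 2) (Fin 2) (ZMod 2)).map (ZMod.castHom dvd_rfl _) * _ = _
        rw [hDn, hrc', mapRep_apply, mapRep_apply, Matrix.map_map,
          show (tateMat b σ).map (toResidue hl₀ hs₀ ∘ ι) = ((tateMat b σ).map BigImage.modP).map
            (ZMod.castHom dvd_rfl (ResidueField 𝒪)) by
              ext i j; exact hred _,
          ← Matrix.map_mul, hg₂, Matrix.map_mul]⟩
  have hN : ∀ σ, N σ = pushConj ι g (tateMat b σ) := fun σ => by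
    show N σ = (g : Matrix (Fin 2) (Fin 2) 𝒪) * mapRep ι (tateMat b) σ *
      (↑g⁻¹ : Matrix (Fin 2) (Fin 2) 𝒪)
    rw [hgN, Units.mul_inv_cancel_right]
  have hcN : IsCont N := by
    intro n
    obtain ⟨L, hL, h1⟩ :=
      (isCont_matrixRep (tateRep (W.map (Int.castRingHom ℚ)) 2) b).map ι hι n
    refine ⟨L, hL, fun σ hσ i j => ?_⟩
    have e : N σ - 1 = (g : Matrix (Fin 2) (Fin 2) 𝒪) *
        (mapRep ι (tateMat b) σ - 1) * (↑g⁻¹ : Matrix (Fin 2) (Fin 2) 𝒪) := by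
      rw [mul_sub, sub_mul, hgN, mul_one, Units.mul_inv_cancel_right, Units.mul_inv]
    rw [e, Matrix.mul_apply]
    refine Ideal.sum_mem _ fun x _ => Ideal.mul_mem_right _ _ ?_
    rw [Matrix.mul_apply]
    exact Ideal.sum_mem _ fun y _ => Ideal.mul_mem_left _ _ (h1 σ hσ y x)
  have hNtr : ∀ σ, (toAdic N hcN).trace σ = ι (tateMat b σ).trace := fun σ => by
    rw [← pushConj_trace ι g, ← hN]
    exact Matrix.trace_toLin'_eq _
  have hNdet : ∀ σ, LinearMap.det ((toAdic N hcN).ρ σ) = ι (tateMat b σ).det := fun σ => by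
    rw [← pushConj_det ι g, ← hN]
    exact LinearMap.det_toLin' _
  have hgood : ∀ ℓ : ℕ, ℓ.Prime → ℓ ≠ 2 → W.IsGoodPrimeFor ℓ →
      ∀ P : ValuationSubring (AlgebraicClosure ℚ), P.LiesOverPrime ℓ →
        ∀ φ : GQ, P.IsFrobeniusAt φ ℓ → (N φ).trace = (W.apOfModel ℓ : 𝒪) := by
    intro ℓ hℓ hℓ2 hg P hP φ hφ
    rw [hN, pushConj_trace, tateMat_apply, trace_tateRep_frobenius hℓ hℓ2 hg hP hφ b, map_intCast]
  refine ⟨Dn, N, hDn ▸ hdi, hDn ▸ hrc, fun ℓ hℓ hg P hP φ hφ => hDn ▸ htr ℓ hℓ hg P hP φ hφ,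
    hgood, fun w hw hw2 hd P hP => ?_, fun E Q hED hℓ₀ hnew hQ hl hs => ⟨⟨hnorm, hredN, hcN, ?_⟩, ?_, ?_⟩⟩
  · obtain ⟨U, hU⟩ := tateMat_fixed b (A := P) ⟨hw, hP, hΔ0, hd, hW w hw hd⟩ hw2
    set V := (g : Matrix (Fin 2) (Fin 2) 𝒪) * (U : Matrix (Fin 2) (Fin 2) ℤ_[2]).map ι with hV
    refine ⟨fun i => V i 0, fun h0 => ?_, fun σ hσ => ?_⟩
    · have hVu : IsUnit V.det := (Matrix.isUnit_iff_isUnit_det _).1
        (g.isUnit.mul (U.isUnit.map ι.mapMatrix))
      have h00 : V 0 0 = 0 := congrFun h0 0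
      have h10 : V 1 0 = 0 := congrFun h0 1
      rw [Matrix.det_fin_two, h00, h10] at hVu
      simp at hVu
    · have e : N σ * V = (g : Matrix (Fin 2) (Fin 2) 𝒪) *
          (tateMat b σ * (U : Matrix (Fin 2) (Fin 2) ℤ_[2])).map ι := by
        rw [hV, ← mul_assoc, ← hgN, mul_assoc, mapRep_apply, Matrix.map_mul]
      refine funext fun i => (show (N σ).mulVec (fun i => V i 0) i = (N σ * V) i 0 by
        simp [Matrix.mul_apply, Matrix.mulVec, dotProduct]).trans ?_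
      rw [e, hV, Matrix.mul_apply, Matrix.mul_apply]
      exact Finset.sum_congr rfl fun x _ => by rw [Matrix.map_apply, Matrix.map_apply, hU σ hσ]
  · have hD2 : ¬ 2 ∣ D := by omega
    have hmult : ∀ q : ℕ, q.Prime → (q : ℤ) ∣ W.Δ →
        ∀ P : ValuationSubring (AlgebraicClosure ℚ), P.LiesOverPrime q → Mult.IsMultAt W P q :=
      fun q hq hd P hP => ⟨hq, hP, hΔ0, hd, hW q hq hd⟩
    refine ⟨⟨h2m, fun n σ a ha => ?_⟩, fun x hx => absurd hx (Set.notMem_empty x),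
      fun P hP τ hτ => ?_, fun q hq hqN P hP φ hφ => ?_, fun q hq hq2 hqD hqA hqQ P hP τ hτ => ?_⟩
    · have h := (tateRep_detIsCyclotomic (W.map (Int.castRingHom ℚ)) 2).2 n σ a ha
      rw [hNdet, show (tateMat b σ).det = LinearMap.det ((tateRep (W.map (Int.castRingHom ℚ)) 2).ρ σ)
        from LinearMap.det_toMatrix b _]
      have h' := Ideal.mem_map_of_mem ι h
      rwa [map_sub, map_natCast, Ideal.map_span, Set.image_singleton, map_natCast] at h'
    · have hℓ2 : E.ℓ₀ ≠ 2 := fun h => hD2 (hED ▸ h ▸ E.dvd_ℓ₀)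
      obtain ⟨φ, hφ⟩ := Frobenius.exists_isFrobeniusAt_qbar E.prime_ℓ₀ hP
      obtain ⟨ht, hd, -, -⟩ :=
        (tateMat_new b (hmult _ E.prime_ℓ₀ hℓ₀ P hP) hℓ2 hφ).2 τ hτ
      show LinearMap.charpoly (Matrix.toLin' (N τ)) = _
      rw [← LinearMap.charpoly_toMatrix _ (Pi.basisFun 𝒪 (Fin 2)),
        show LinearMap.toMatrix (Pi.basisFun 𝒪 (Fin 2)) (Pi.basisFun 𝒪 (Fin 2))
          (Matrix.toLin' (N τ)) = N τ from LinearMap.toMatrix'_toLin' _,
        Matrix.charpoly_fin_two, hN, pushConj_trace, pushConj_det, ht, hd, map_one, map_ofNat,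
        map_ofNat, map_one]
      ring
    · have hq2 : q ≠ 2 := by
        rintro rfl
        rcases hqN with h | h
        · exact hD2 (hED ▸ h.1)
        · exact (E.aux_spec 2 h).2.1 rfl
      obtain ⟨hd, hsgn⟩ := hnew q hq (hED ▸ hqN)
      obtain ⟨h1, h2⟩ := tateMat_new b (hmult q hq hd P hP) hq2 hφ
      refine ⟨by rw [hNtr, h1, hsgn]; simp, fun τ hτ => ?_⟩
      obtain ⟨ht, -, e1, e2⟩ := h2 τ hτ
      refine ⟨by rw [hNtr, ht, map_ofNat], ?_, ?_⟩
      · rw [hsgn]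
        have := congrArg (fun X => Matrix.toLinAlgEquiv' (pushConj ι g X)) e1
        simp only [map_mul, map_sub, map_one, map_zero, pushConj_smul, map_intCast, map_natCast,
          map_smul, ← hN] at this
        exact this
      · rw [hsgn]
        have := congrArg (fun X => Matrix.toLinAlgEquiv' (pushConj ι g X)) e2
        simp only [map_mul, map_sub, map_one, map_zero, pushConj_smul, map_intCast,
          map_smul, ← hN] at this
        exact this
    · have hg : W.IsGoodPrimeFor q := fun hd => hqQ (hQ (Finset.mem_filter.2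
        ⟨Nat.mem_primeFactors.2 ⟨hq, Int.natCast_dvd.1 hd, Int.natAbs_ne_zero.2 hΔ0⟩,
          hq2, hED ▸ hqD, hqA⟩))
      rw [toAdic_ρ_eq, hN, tateMat_apply, tateAct_inertia hq hq2 hg hP hτ, LinearMap.toMatrix_one,
        map_one, map_one]
      rfl
  · show toResidue hl₀ hs₀ (curveSign W 2 : 𝒪) = 1
    rcases curveSign_eq W 2 with h | h <;> rw [h] <;> simp [CharTwo.neg_eq]
  · intro P hP φ hφ n n' τ hτ τ' hτ'
    have := congrArg (pushConj ι g) (tateMat_ordinary b hΔ0 h2Δ (hW 2 Nat.prime_two h2Δ)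
      P hP φ hφ n n' τ hτ τ' hτ')
    simpa [pushConj_smul, ← hN, ← pushConj_det ι g] using this

end Fermat.Agent.TwoAdic.CurvePoint
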