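import Fermat.Agent.TwoAdic.CurvePoint.Main
import Fermat.Agent.TwoAdic.Route.Curve

/-!
# The 2-adic point of the switched curve, consumer form

`CurvePair`: the consumer form of the `2`-adic point of the switched curve.
-/

set_option autoImplicit false

noncomputable section

open IsLocalRing Fermat.Agent.DefRing

namespace Fermat.Agent.TwoAdic.CurvePoint

/-- The `2`-adic pair of a switched curve over any coefficient ring. -/
theorem curvePair : TopDown.CurvePair := by
  intro W hW hneg hΔ hcub D _ hD8 hsquare hDΔ O _ _ _ _ _ _ _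
  obtain ⟨Dn, N, hdi, hc, hres, htr, hfix, hp⟩ :=
    exists_curvePair hW hneg hΔ hcub hD8 hsquare O
  refine ⟨curveSign W, Dn, N, curveSign_eq W, hdi, hc, hres, htr,
    fun w hw hw2 hd _ => hfix w hw hw2 hd, fun E Q hED haux hsgn hQ => ?_⟩
  refine hp E Q hED ?_ (fun q _ h => ?_) (fun q hq => ?_) _ _
  · exact ((Int.natCast_dvd_natCast.mpr (hED ▸ E.dvd_ℓ₀)).trans hDΔ)
  · rcases h with h | h
    · exact ⟨(Int.natCast_dvd_natCast.mpr h.1).trans hDΔ, hsgn q⟩
    · rw [haux] at h
      exact absurd h (Finset.notMem_empty q)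
  · obtain ⟨hq', hq2, hqD, -⟩ := Finset.mem_filter.mp hq
    exact hQ q (Nat.prime_of_mem_primeFactors hq') hq2
      (Int.natCast_dvd.mpr (Nat.dvd_of_mem_primeFactors hq')) hqD

end Fermat.Agent.TwoAdic.CurvePoint

end
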