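import Fermat.Agent.TwoAdic.CurvePoint.Local
import Fermat.Agent.DihedralGlue.Residual
import Fermat.Agent.BigImage.TateImage
import Fermat.Agent.DefRing.NormalForm

/-!
# The residual representation of the 2-adic Tate module

The `2`-adic Tate module lifts the dihedral residual representation `E[2] ⊗ k`; normal form data
for a representation with image `SL₂(𝔽₂)`.
-/

set_option autoImplicit false

noncomputable section

namespace Fermat.Agent.TwoAdic.CurvePoint

open IsLocalRing WeierstrassCurve Fermat.Agent.EllLocal Fermat.Agent.DefRing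
open Fermat.Agent.BigImage (projOne projOne_smul projOne_surjective projOne_rho)
open scoped WeierstrassCurve.Affine

set_option quotPrecheck false in
local notation "T(" W "," p ")" => tateModule (WeierstrassCurve.map W (Int.castRingHom ℚ)) p

variable {W : WeierstrassCurve ℤ} [(W.map (Int.castRingHom ℚ)).IsElliptic]

/-- Reduction modulo `2` of the Tate module in a basis is `E[2]` in some basis. -/
theorem exists_torsMat_conj (b : Module.Basis (Fin 2) ℤ_[2] T(W, 2))
    (c : Module.Basis (Fin 2) (ZMod 2) (DihedralGlue.Tors W)) :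
    ∃ g : (Matrix (Fin 2) (Fin 2) (ZMod 2))ˣ, ∀ σ, (g : Matrix (Fin 2) (Fin 2) (ZMod 2)) *
      (tateMat b σ).map BigImage.modP = DihedralGlue.torsMat W c σ * g := by
  classical
  let v : Fin 2 → DihedralGlue.Tors W := fun i => projOne (b i)
  have hv : ∀ x : T(W, 2), (projOne x : DihedralGlue.Tors W) =
      ∑ i, BigImage.modP (b.repr x i) • v i := fun x => by
    conv_lhs => rw [← b.sum_repr x, map_sum]
    exact Finset.sum_congr rfl fun i _ => projOne_smul _ _
  have hspan : ⊤ ≤ Submodule.span (ZMod 2) (Set.range v) := fun y _ => by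
    obtain ⟨x, rfl⟩ := projOne_surjective (E := W.map (Int.castRingHom ℚ)) (p := 2) y
    rw [hv x]
    exact Submodule.sum_mem _ fun i _ => Submodule.smul_mem _ _ (Submodule.subset_span ⟨i, rfl⟩)
  have hfin : Module.finrank (ZMod 2) (DihedralGlue.Tors W) = 2 := by
    rw [Module.finrank_eq_card_basis c, Fintype.card_fin]
  have : Module.Finite (ZMod 2) (DihedralGlue.Tors W) := Module.Finite.of_basis c
  let b₁ := Module.Basis.mk (linearIndependent_of_top_le_span_of_card_eq_finrank hspan
    (by rw [Fintype.card_fin, hfin])) hspan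
  have hb₁ : ∀ i, b₁ i = v i := fun i => by simp [b₁]
  let f : GQ → Module.End (ZMod 2) (DihedralGlue.Tors W) := fun σ =>
    Affine.Point.galoisRepModuleEnd ℚ (DihedralGlue.ratCurve W).toAffine 2 σ
  obtain ⟨g, hg⟩ := (exists_equiv_iff_exists_GL b₁ c f f).1
    ⟨LinearEquiv.refl _ _, fun σ x => rfl⟩
  refine ⟨g, fun σ => (congrArg _ ?_).trans (hg σ)⟩
  ext i j
  rw [Matrix.map_apply, tateMat_apply, LinearMap.toMatrix_apply, LinearMap.toMatrix_apply, hb₁]
  have h1 : f σ (v j) = (projOne (tateAct σ (b j)) : DihedralGlue.Tors W) := rfl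
  rw [h1, hv, map_sum, Finsupp.coe_finsetSum, Finset.sum_apply, Finset.sum_eq_single i]
  · rw [← hb₁, map_smul, Module.Basis.repr_self, Finsupp.smul_apply, Finsupp.single_eq_same,
      smul_eq_mul, mul_one]
  · intro l _ hl
    rw [← hb₁, map_smul, Module.Basis.repr_self, Finsupp.smul_apply,
      Finsupp.single_eq_of_ne hl.symm, smul_zero]
  · exact fun h => absurd (Finset.mem_univ i) h

variable {𝒪 : Type} [CommRing 𝒪] [IsLocalRing 𝒪]

omit [(W.map (Int.castRingHom ℚ)).IsElliptic] in
/-- Normal form data when every matrix of determinant one over `𝔽₂` occurs. -/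
theorem exists_normalData_torsMat [CharP (ResidueField 𝒪) 2]
    (c : Module.Basis (Fin 2) (ZMod 2) (DihedralGlue.Tors W))
    (hsurj : ∀ M : Matrix (Fin 2) (Fin 2) (ZMod 2), M.det = 1 →
      ∃ σ, DihedralGlue.torsMat W c σ = M) :
    ∃ D : NormalData 𝒪,
      D.rbar = mapRep (ZMod.castHom dvd_rfl (ResidueField 𝒪)) (DihedralGlue.torsMat W c) := by
  set r := mapRep (ZMod.castHom dvd_rfl (ResidueField 𝒪)) (DihedralGlue.torsMat W c) with hr
  obtain ⟨σ₁, h1⟩ := hsurj !![1, 1; 1, 0] (by decide +kernel)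
  obtain ⟨σ₂, h2⟩ := hsurj !![0, 1; 1, 0] (by decide +kernel)
  obtain ⟨σ₃, h3⟩ := hsurj !![1, 0; 1, 1] (by decide +kernel)
  have hadd : ∀ a a' : GQ, evRep r (MonoidAlgebra.of 𝒪 GQ a + MonoidAlgebra.of 𝒪 GQ a') =
      (DihedralGlue.torsMat W c a + DihedralGlue.torsMat W c a').map
        (ZMod.castHom dvd_rfl (ResidueField 𝒪)) := fun a a' => by
    rw [map_add, evRep_of, evRep_of, hr, mapRep_apply, mapRep_apply,
      Matrix.map_add _ (map_add _)]
  refine ⟨⟨r, MonoidAlgebra.of 𝒪 GQ σ₁ + MonoidAlgebra.of 𝒪 GQ σ₂,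
    MonoidAlgebra.of 𝒪 GQ σ₃ + MonoidAlgebra.of 𝒪 GQ 1, ?_, ?_⟩, rfl⟩
  · rw [hadd, h1, h2, show (!![1, 1; 1, 0] + !![0, 1; 1, 0] : Matrix (Fin 2) (Fin 2) (ZMod 2)) =
      Matrix.single 0 0 1 by decide +kernel]
    ext i j
    fin_cases i <;> fin_cases j <;> simp
  · rw [hadd, h3, map_one, show (!![1, 0; 1, 1] + 1 : Matrix (Fin 2) (Fin 2) (ZMod 2)) =
      Matrix.single 1 0 1 by decide +kernel]
    ext i j
    fin_cases i <;> fin_cases j <;> simp

end Fermat.Agent.TwoAdic.CurvePoint
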